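/-
Fermat/Agent/MAZ/Constit89/Pow.lean  (helper89)

Programme MAZ (S15), brick X-ES-A1, **power form of the Eichler–Shimura input.**

The Chebotarev theorem available in the ES library is in *generator form*
(`ES.GAL.ChebQbar23.exists_frobenius_pow_eq_on`): every `g` acts on a finite level as a POWER
`φ ^ j` of a Frobenius element, not as a Frobenius element itself.  This file transfers the
nilpotency of `(φ - 1)(φ - a)` to `(φ ^ j - 1)(φ ^ j - a ^ j)` and changes the constant modulo a
nilpotent integer: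

* `isNilpotent_quadOp_pow`   : `(g - 1)(g - a)` nilpotent ⇒ `(g ^ j - 1)(g ^ j - a ^ j)` nilpotent;
* `isNilpotent_quadOp_congr` : `a ≡ b mod r`, `r` nilpotent on `V` ⇒ may replace `a` by `b`;
* `nilQuad_of_frobenius_pow` : the class `SelCoh42.NilQuad χ V` from "every `g` acts as a power of
  an element `φ` satisfying an Eichler–Shimura relation with nilpotent `η`".
-/
import Mathlib
import Fermat.Agent.MAZ.SelCoh42.NilSimple

set_option autoImplicit false

namespace Fermat.Agent.MAZ.Constit89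

open Fermat.Agent.MAZ.SelCoh42 Polynomial

universe u v

variable {Γ : Type v} [Group Γ] {V : Type u} [AddCommGroup V] [DistribMulAction Γ V]

theorem actEnd_pow (g : Γ) (j : ℕ) : actEnd V (g ^ j) = actEnd V g ^ j :=
  map_pow (DistribMulAction.toAddMonoidEnd Γ V) g j

/-- `quadOp` only depends on the action of `g` on `V`. -/
theorem quadOp_congr_act {g g' : Γ} (h : ∀ x : V, g • x = g' • x) (a : ℕ) :
    quadOp V a g = quadOp V a g' := by
  have h1 : actEnd V g = actEnd V g' := by
    ext x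
    exact h x
  unfold quadOp
  rw [h1]

/-- `(g - 1)(g - a)` as the value of a polynomial at `g`. -/
theorem quadOp_eq_aeval (a : ℕ) (g : Γ) :
    quadOp V a g = aeval (actEnd V g) ((X - 1) * (X - (a : ℤ[X]))) := by
  unfold quadOp
  rw [map_mul, map_sub, map_sub, aeval_X, map_one, map_natCast]

/-- the polynomial identity behind `isNilpotent_quadOp_pow`. -/
theorem poly_identity (a j : ℕ) :
    (X ^ j - 1) * (X ^ j - ((a ^ j : ℕ) : ℤ[X])) =
      ((X - 1) * (X - (a : ℤ[X]))) *
        ((∑ i ∈ Finset.range j, X ^ i) *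
          (∑ i ∈ Finset.range j, X ^ i * (a : ℤ[X]) ^ (j - 1 - i))) := by
  have h1 : (X ^ j - 1 : ℤ[X]) = (X - 1) * ∑ i ∈ Finset.range j, X ^ i := (mul_geom_sum X j).symm
  have h2 : (X ^ j - ((a ^ j : ℕ) : ℤ[X])) =
      (X - (a : ℤ[X])) * ∑ i ∈ Finset.range j, X ^ i * (a : ℤ[X]) ^ (j - 1 - i) := by
    rw [Nat.cast_pow]
    exact ((Commute.all (X : ℤ[X]) (a : ℤ[X])).mul_geom_sum₂ j).symm
  rw [h1, h2]
  ring

/-- **Power transfer.** -/
theorem isNilpotent_quadOp_pow (a : ℕ) (g : Γ) (j : ℕ) (h : IsNilpotent (quadOp V a g)) :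
    IsNilpotent (quadOp V (a ^ j) (g ^ j)) := by
  have e : quadOp V (a ^ j) (g ^ j) =
      aeval (actEnd V g) ((X ^ j - 1) * (X ^ j - ((a ^ j : ℕ) : ℤ[X]))) := by
    unfold quadOp
    rw [actEnd_pow, map_mul, map_sub, map_sub, map_pow, aeval_X, map_one, map_natCast]
  rw [e, poly_identity, map_mul, ← quadOp_eq_aeval]
  refine Commute.isNilpotent_mul_right ?_ h
  rw [quadOp_eq_aeval]
  exact (Commute.all _ _).map (aeval (actEnd V g))

/-- **Change of the constant modulo a nilpotent integer.** -/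
theorem isNilpotent_quadOp_congr (r : ℕ) (hr : IsNilpotent ((r : ℕ) : AddMonoid.End V))
    (g : Γ) {a b : ℕ} (hab : (a : ZMod r) = (b : ZMod r)) (h : IsNilpotent (quadOp V a g)) :
    IsNilpotent (quadOp V b g) := by
  obtain ⟨d, hd⟩ : ∃ d : ℤ, (a : ℤ) - b = r * d := by
    have h1 : ((a : ℤ) : ZMod r) = ((b : ℤ) : ZMod r) := by
      rw [Int.cast_natCast, Int.cast_natCast, hab]
    obtain ⟨d, hd⟩ := (ZMod.intCast_eq_intCast_iff_dvd_sub _ _ r).1 h1
    exact ⟨-d, by linarith⟩
  set G := actEnd V g with hG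
  have hE : (a : AddMonoid.End V) - (b : AddMonoid.End V) =
      (r : AddMonoid.End V) * (d : AddMonoid.End V) := by
    have := congrArg (Int.cast : ℤ → AddMonoid.End V) hd
    push_cast at this
    exact this
  have hdc : ∀ Y : AddMonoid.End V, Commute ((r : AddMonoid.End V) * (d : AddMonoid.End V)) Y :=
    fun Y => Commute.mul_left (Nat.cast_commute r Y) (Int.cast_commute d Y)
  have key : quadOp V b g =
      quadOp V a g + ((r : AddMonoid.End V) * (d : AddMonoid.End V)) * (G - 1) := by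
    rw [(hdc (G - 1)).eq, ← hE]
    unfold quadOp
    rw [← hG]
    noncomm_ring
  rw [key]
  have h2 : IsNilpotent (((r : AddMonoid.End V) * (d : AddMonoid.End V)) * (G - 1)) :=
    (hdc (G - 1)).isNilpotent_mul_right ((Nat.cast_commute r _).isNilpotent_mul_right hr)
  refine Commute.isNilpotent_add ?_ h h2
  exact Commute.mul_right ((hdc _).symm)
    (by
      unfold quadOp
      rw [← hG]
      exact Commute.mul_left (Commute.refl _)
        (Commute.sub_left (Commute.sub_right (Commute.refl G) (Commute.one_right G))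
          (Commute.sub_right (Nat.cast_commute a G) (Commute.one_right _))))

/-- `r ^ k` kills `V` ⇒ `r` is nilpotent in `End V`. -/
theorem isNilpotent_natCast_end (r k : ℕ) (h : ∀ x : V, r ^ k • x = 0) :
    IsNilpotent ((r : ℕ) : AddMonoid.End V) := by
  refine ⟨k, ?_⟩
  ext x
  rw [← Nat.cast_pow]
  exact h x

/-- **The class `NilQuad χ V` from Eichler–Shimura relations in power form.** -/
theorem nilQuad_of_frobenius_pow {r : ℕ} [NeZero r] (χ : Γ →* (ZMod r)ˣ)
    (hr : IsNilpotent ((r : ℕ) : AddMonoid.End V))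
    (h : ∀ g : Γ, ∃ (φ : Γ) (j q : ℕ) (η : AddMonoid.End V),
      (∀ x : V, g • x = φ ^ j • x) ∧ χ g = χ φ ^ j ∧
      ((χ φ : (ZMod r)ˣ) : ZMod r) = (q : ZMod r) ∧
      IsNilpotent η ∧ Commute η (actEnd V φ) ∧
      actEnd V φ * actEnd V φ - (η + 1 + (q : AddMonoid.End V)) * actEnd V φ
        + (q : AddMonoid.End V) = 0) :
    NilQuad χ V := by
  intro g
  obtain ⟨φ, j, q, η, hact, hχ, hq, hη, hcomm, hrel⟩ := h g
  set a := ((χ φ : (ZMod r)ˣ) : ZMod r).val with ha
  have h1 : IsNilpotent (quadOp V a φ) :=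
    isNilpotent_quadOp_of_relation r hr φ a q (by rw [ha, ZMod.natCast_zmod_val, hq]) η hη hcomm
      hrel
  have h2 : IsNilpotent (quadOp V (a ^ j) (φ ^ j)) := isNilpotent_quadOp_pow a φ j h1
  rw [quadOp_congr_act hact]
  refine isNilpotent_quadOp_congr r hr (φ ^ j) ?_ h2
  rw [ZMod.natCast_zmod_val, hχ, Units.val_pow_eq_pow_val, Nat.cast_pow, ha, ZMod.natCast_zmod_val]

end Fermat.Agent.MAZ.Constit89
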