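/-
Fermat/Agent/MAZ/Constit89/Main.lean  (helper89)

Programme MAZ (S15), brick X-ES-A1, **concrete half: the Eisenstein part `G_k = J₀(p)[r^k]_m`
(and every Galois- and Hecke-stable finite subgroup of it) lies in the class `NilQuad`** for the
mod `r` cyclotomic character `ExtCitation.cycloChar r` of the Prelude.

Inputs from the ES library:
* `ES.GAL.OpenStab12.hasLevel_finite`  : a finite set of points of `J₀(p)(ℚ̄)` has a finite level;
* `ES.GAL.ChebQbar23.exists_frobenius_pow_eq_on` : Chebotarev in generator form;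
* `ES.TOP.TorsionGalois12.frobenius_relation` : Eichler–Shimura on torsion prime to `ℓ`;
* `ES.HECKE.HeckeGalois12.heckeOperatorBar_smul` : Hecke and Galois commute;
* `ES.J.CycloChar8.cyclo_of_isFrobeniusAt` : the cyclotomic character at a Frobenius.

Main results:
* `cycloChar_of_isFrobeniusAt` : `cycloChar r φ = ℓ mod r` for a Frobenius `φ` at `ℓ ≠ r`;
* `exists_frobenius_pow_act`   : every `g` acts on a finite set of points, and through `cycloChar r`,
  as a power of a Frobenius at a prime outside a given finite set;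
* `nilQuad_of_le_Gm`, `rClass_of_le_Gm` : the class for stable subgroups of `Gm p r S k`.
-/
import Mathlib
import Fermat.Prelude.Def_ExtCitation_KummerBridge
import Fermat.Agent.MAZ.Constit89.Pow
import Fermat.Agent.MAZ.Gm5.Defs
import Fermat.Agent.ES.GAL.ChebQbar23
import Fermat.Agent.ES.GAL.OpenStab12
import Fermat.Agent.ES.TOP.TorsionGalois12
import Fermat.Agent.ES.HECKE.HeckeGalois12
import Fermat.Agent.ES.J.CycloChar8

set_option autoImplicit false
set_option linter.unusedSectionVars false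

open ModularCurve AlgebraicCurve

namespace Fermat.Agent.MAZ.Constit89

open Fermat.Agent.MAZ.SelCoh42 Fermat.Agent.MAZ.Gm5

local notation "Qb" => AlgebraicClosure ℚ
local notation "GQ" => (AlgebraicClosure ℚ ≃ₐ[ℚ] AlgebraicClosure ℚ)

/-! ### The mod `r` cyclotomic character of the Prelude -/

section Cyclo

variable (r : ℕ) [hr : Fact r.Prime]

/-- `σ` raises every `r`-th root of unity to the power `cycloExp r σ`. -/
theorem apply_root_eq_pow_cycloExp (σ : GQ) {t : Qb} (ht : t ^ r = 1) :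
    σ t = t ^ ExtCitation.cycloExp r σ := by
  have : NeZero r := ⟨hr.out.ne_zero⟩
  have htu : IsUnit t := IsUnit.of_pow_eq_one ht (NeZero.ne r)
  obtain ⟨u, rfl⟩ := htu
  have hu : u ∈ rootsOfUnity r Qb := by
    rw [mem_rootsOfUnity]
    exact Units.ext (by simpa using ht)
  exact modularCyclotomicCharacter.spec Qb (ExtCitation.card_rootsOfUnity_eq_self r)
    (σ : Qb ≃+* Qb) hu

theorem exists_primitiveRoot_r : ∃ ζ : Qb, IsPrimitiveRoot ζ r := by
  have := Fermat.Agent.ES.J.CycloChar8.exists_primitiveRoot r 1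
  simpa using this

/-- the value of `cycloChar r` is read off on one primitive root. -/
theorem coe_cycloChar_eq_of_apply {σ : GQ} {ζ : Qb} (hζ : IsPrimitiveRoot ζ r) {m : ℕ}
    (h : σ ζ = ζ ^ m) : ((ExtCitation.cycloChar r σ : (ZMod r)ˣ) : ZMod r) = (m : ZMod r) := by
  have h1 := apply_root_eq_pow_cycloExp r σ hζ.pow_eq_one
  rw [h] at h1
  have h2 : m ≡ ExtCitation.cycloExp r σ [MOD r] :=
    Fermat.Agent.ES.J.CycloChar8.modEq_of_pow_eq_pow hζ hr.out.ne_zero h1
  rw [ExtCitation.coe_cycloChar]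
  exact ((ZMod.natCast_eq_natCast_iff _ _ _).mpr h2).symm

/-- an automorphism fixing a primitive `r`-th root of unity has trivial `cycloChar r`. -/
theorem cycloChar_eq_one_of_fix {σ : GQ} {ζ : Qb} (hζ : IsPrimitiveRoot ζ r) (h : σ ζ = ζ) :
    ExtCitation.cycloChar r σ = 1 := by
  apply Units.ext
  have := coe_cycloChar_eq_of_apply r hζ (m := 1) (by rw [pow_one]; exact h)
  rw [this, Nat.cast_one, Units.val_one]

/-- **`cycloChar r φ = ℓ`** for a Frobenius element at `ℓ ≠ r`. -/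
theorem cycloChar_of_isFrobeniusAt {ℓ : ℕ} (hℓ : ℓ.Prime) (hℓr : ℓ ≠ r)
    (A : ValuationSubring Qb) (hA : A.LiesOverPrime ℓ) {φ : GQ} (hφ : A.IsFrobeniusAt φ ℓ) :
    ((ExtCitation.cycloChar r φ : (ZMod r)ˣ) : ZMod r) = (ℓ : ZMod r) := by
  obtain ⟨ζ, hζ⟩ := Fermat.Agent.ES.J.CycloChar8.exists_primitiveRoot r 1
  have hζ' : IsPrimitiveRoot ζ r := by simpa using hζ
  have h1 := apply_root_eq_pow_cycloExp r φ hζ'.pow_eq_one
  have h2 := Fermat.Agent.ES.J.CycloChar8.toZModPow_cyclo r hζ h1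
  rw [Fermat.Agent.ES.J.CycloChar8.cyclo_of_isFrobeniusAt r hℓ hℓr A hA hφ, map_natCast,
    ZMod.natCast_eq_natCast_iff, pow_one] at h2
  rw [ExtCitation.coe_cycloChar]
  exact ((ZMod.natCast_eq_natCast_iff _ _ _).mpr h2).symm

end Cyclo

/-! ### Every `g` acts on a finite level as a power of a Frobenius -/

section Level

variable (p : ℕ) [NeZero p] (r : ℕ) [hr : Fact r.Prime]

/-- **Chebotarev at a finite set of points of `J₀(p)(ℚ̄)`**: every `g` acts on a finite set `W` of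
points, and through `cycloChar r`, as a power of a Frobenius element at a prime outside `S`. -/
theorem exists_frobenius_pow_act (W : Set (JZero p)) (hW : W.Finite) (S : Finset ℕ) (g : GQ) :
    ∃ (ℓ : ℕ) (A : ValuationSubring Qb) (φ : GQ) (j : ℕ), ℓ.Prime ∧ ℓ ∉ S ∧
      A.LiesOverPrime ℓ ∧ A.IsFrobeniusAt φ ℓ ∧ (∀ y ∈ W, g • y = φ ^ j • y) ∧
      ExtCitation.cycloChar r g = ExtCitation.cycloChar r φ ^ j := by
  obtain ⟨ζ, hζ⟩ := exists_primitiveRoot_r r
  obtain ⟨L, hL, hLfix⟩ := (Fermat.Agent.ES.GAL.OpenStab12.hasLevel_finite p W hW).and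
    (Fermat.Agent.ES.GAL.OpenStab12.hasLevel_const ζ)
  have := hL
  obtain ⟨ℓ, A, φ, j, hℓ, hℓS, hA, hφ, hpow⟩ :=
    Fermat.Agent.ES.GAL.ChebQbar23.exists_frobenius_pow_eq_on L g S
  -- `σ := (φ ^ j)⁻¹ * g` fixes `L`
  set σ : GQ := (φ ^ j)⁻¹ * g with hσ
  have hg : g = φ ^ j * σ := by rw [hσ, mul_inv_cancel_left]
  have hfix : ∀ a ∈ L, σ a = a := by
    intro a ha
    rw [hσ, AlgEquiv.mul_apply, ← hpow a ha, ← AlgEquiv.mul_apply, inv_mul_cancel,
      AlgEquiv.one_apply]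
  obtain ⟨h1, h2⟩ := hLfix σ hfix
  refine ⟨ℓ, A, φ, j, hℓ, hℓS, hA, hφ, fun y hy => ?_, ?_⟩
  · rw [hg, mul_smul, h1 y hy]
  · rw [hg, map_mul, cycloChar_eq_one_of_fix r hζ h2, mul_one, map_pow]

end Level

/-! ### The restricted `η_q` -/

section Eta

variable {p : ℕ} [NeZero p]

/-- a locally nilpotent endomorphism of a finite abelian group is nilpotent. -/
theorem isNilpotent_of_finite_of_locally {M : Type*} [AddCommGroup M] [Finite M]
    (f : AddMonoid.End M) (h : ∀ x : M, ∃ n : ℕ, (f ^ n) x = 0) : IsNilpotent f := by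
  classical
  have := Fintype.ofFinite M
  choose n hn using h
  refine ⟨Finset.univ.sup n, ?_⟩
  ext x
  have hle : n x ≤ Finset.univ.sup n := Finset.le_sup (Finset.mem_univ x)
  obtain ⟨d, hd⟩ := Nat.exists_eq_add_of_le hle
  rw [hd, add_comm, pow_add]
  show (f ^ d) ((f ^ n x) x) = 0
  rw [hn x, map_zero]

variable (T : StableSub GQ (JZero p)) (q : Nat.Primes)

/-- `η_q = T_q - (1 + q)` restricted to a Hecke-stable subgroup. -/
noncomputable def etaRes (hst : ∀ y ∈ T.W, heckeOperatorBar p q y ∈ T.W) : AddMonoid.End T.W :=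
  AddMonoidHom.mk' (fun y => ⟨etaBar p q y.1, by
    rw [etaBar_apply]
    exact T.W.sub_mem (hst y.1 y.2) (T.W.nsmul_mem y.2 _)⟩)
    (fun y z => Subtype.ext (by
      show etaBar p q ((y + z : T.W) : JZero p) = etaBar p q y.1 + etaBar p q z.1
      rw [AddSubgroup.coe_add, map_add]))

variable {T q}

theorem coe_etaRes_apply (hst : ∀ y ∈ T.W, heckeOperatorBar p q y ∈ T.W) (y : T.W) :
    ((etaRes T q hst y : T.W) : JZero p) = etaBar p q y.1 := rfl

theorem coe_etaRes_pow_apply (hst : ∀ y ∈ T.W, heckeOperatorBar p q y ∈ T.W) (n : ℕ) (y : T.W) :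
    (((etaRes T q hst ^ n) y : T.W) : JZero p) = (etaBar p q ^ n) y.1 := by
  induction n generalizing y with
  | zero => rfl
  | succ n ih =>
    rw [pow_succ, pow_succ]
    show (((etaRes T q hst ^ n) (etaRes T q hst y) : T.W) : JZero p) =
      (etaBar p q ^ n) (etaBar p q y.1)
    rw [ih, coe_etaRes_apply]

theorem isNilpotent_etaRes [Finite T.W] (hst : ∀ y ∈ T.W, heckeOperatorBar p q y ∈ T.W)
    (hnil : ∀ y ∈ T.W, ∃ n : ℕ, (etaBar p q ^ n) y = 0) : IsNilpotent (etaRes T q hst) := by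
  refine isNilpotent_of_finite_of_locally _ fun y => ?_
  obtain ⟨n, hn⟩ := hnil y.1 y.2
  refine ⟨n, Subtype.ext ?_⟩
  rw [coe_etaRes_pow_apply, hn]
  rfl

theorem commute_etaRes_actEnd (hst : ∀ y ∈ T.W, heckeOperatorBar p q y ∈ T.W) (φ : GQ) :
    Commute (etaRes T q hst) (actEnd T.W φ) := by
  rw [commute_iff_eq]
  ext y
  show ((etaRes T q hst (φ • y) : T.W) : JZero p) = ((φ • etaRes T q hst y : T.W) : JZero p)
  have h1 : φ • ((1 + (q : ℕ)) • (y : JZero p)) = (1 + (q : ℕ)) • (φ • (y : JZero p)) :=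
    map_nsmul (DistribSMul.toAddMonoidHom (JZero p) φ) (1 + (q : ℕ)) (y : JZero p)
  rw [coe_etaRes_apply, StableSub.coe_smul, StableSub.coe_smul, coe_etaRes_apply, etaBar_apply,
    etaBar_apply, Fermat.Agent.ES.HECKE.HeckeGalois12.heckeOperatorBar_smul, smul_sub, h1]

end Eta

/-! ### The main theorem -/

section Main

variable {p : ℕ} [NeZero p] (r : ℕ) [hr : Fact r.Prime]

/-- **X-ES-A1 (concrete form).**  Let `T` be a finite Galois-stable subgroup of `J₀(p)(ℚ̄)`, killed by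
`r ^ k`, stable under the Hecke operators `T_q` (`q ∉ S`) and on which every `η_q = T_q - 1 - q`
(`q ∉ S`) is locally nilpotent.  Then every `(g - 1)(g - χ(g))`, `χ` the mod `r` cyclotomic
character, is nilpotent on `T`. -/
theorem nilQuad_of_hecke_stable (hp : p.Prime) (S : Finset ℕ) (hpS : p ∈ S) (hrS : r ∈ S) (k : ℕ)
    (T : StableSub GQ (JZero p)) [Finite T.W]
    (hkill : ∀ y ∈ T.W, r ^ k • y = 0)
    (hst : ∀ q : Nat.Primes, (q : ℕ) ∉ S → ∀ y ∈ T.W, heckeOperatorBar p q y ∈ T.W)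
    (hnil : ∀ q : Nat.Primes, (q : ℕ) ∉ S → ∀ y ∈ T.W, ∃ n : ℕ, (etaBar p q ^ n) y = 0) :
    NilQuad (ExtCitation.cycloChar r) T.W := by
  have : NeZero r := ⟨hr.out.ne_zero⟩
  have hrnil : IsNilpotent ((r : ℕ) : AddMonoid.End T.W) :=
    isNilpotent_natCast_end r k fun x => Subtype.ext (by
      rw [AddSubgroup.coe_nsmul, hkill x.1 x.2]
      rfl)
  refine nilQuad_of_frobenius_pow (ExtCitation.cycloChar r) hrnil fun g => ?_
  have hWfin : (T.W : Set (JZero p)).Finite := by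
    have hfin : Finite ↥(T.W : Set (JZero p)) := ‹Finite T.W›
    exact Set.toFinite _
  obtain ⟨ℓ, A, φ, j, hℓ, hℓS, hA, hφ, hact, hχ⟩ :=
    exists_frobenius_pow_act p r (T.W : Set (JZero p)) hWfin S g
  have hℓp : ¬ ℓ ∣ p := fun h =>
    hℓS (((Nat.prime_dvd_prime_iff_eq hℓ hp).mp h) ▸ hpS)
  have hℓr : ℓ ≠ r := fun h => hℓS (h ▸ hrS)
  have hℓrk : ¬ ℓ ∣ r ^ k := fun h =>
    hℓr ((Nat.prime_dvd_prime_iff_eq hℓ hr.out).mp (hℓ.dvd_of_dvd_pow h))
  set q : Nat.Primes := ⟨ℓ, hℓ⟩ with hq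
  have hqS : (q : ℕ) ∉ S := hℓS
  refine ⟨φ, j, ℓ, etaRes T q (hst q hqS), fun x => Subtype.ext ?_, hχ,
    cycloChar_of_isFrobeniusAt r hℓ hℓr A hA hφ,
    isNilpotent_etaRes (hst q hqS) (hnil q hqS), commute_etaRes_actEnd (hst q hqS) φ, ?_⟩
  · rw [StableSub.coe_smul, StableSub.coe_smul]
    exact hact x.1 x.2
  · ext y
    show ((φ • φ • y - (etaRes T q (hst q hqS) (φ • y) + φ • y + ℓ • (φ • y)) + ℓ • y : T.W) :
      JZero p) = ((0 : T.W) : JZero p)
    have hrel := Fermat.Agent.ES.TOP.TorsionGalois12.frobenius_relation hℓ hℓp hA hℓrk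
      (hkill y.1 y.2) hφ
    rw [AddSubgroup.coe_add, AddSubgroup.coe_sub, AddSubgroup.coe_add, AddSubgroup.coe_add,
      AddSubgroup.coe_nsmul, AddSubgroup.coe_nsmul, coe_etaRes_apply, StableSub.coe_smul,
      StableSub.coe_smul, etaBar_apply, AddSubgroup.coe_zero, ← hrel]
    show φ • φ • (y : JZero p) - (heckeOperatorBar p q (φ • (y : JZero p)) -
      (1 + ℓ) • φ • (y : JZero p) + φ • (y : JZero p) + ℓ • φ • (y : JZero p)) + ℓ • (y : JZero p)
      = φ • φ • (y : JZero p) - heckeOperatorBar p q (φ • (y : JZero p)) + ℓ • (y : JZero p)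
    rw [add_smul, one_smul]
    abel

/-- **X-ES-A1 for the stable subgroups of `Gm p r S k`.** -/
theorem nilQuad_of_le_Gm (hp : p.Prime) (S : Finset ℕ) (hpS : p ∈ S) (hrS : r ∈ S) (k : ℕ)
    (T : StableSub GQ (JZero p)) [Finite T.W] (hT : T.W ≤ Gm p r S k)
    (hst : ∀ q : Nat.Primes, (q : ℕ) ∉ S → ∀ y ∈ T.W, heckeOperatorBar p q y ∈ T.W) :
    NilQuad (ExtCitation.cycloChar r) T.W :=
  nilQuad_of_hecke_stable r hp S hpS hrS k T (fun _ hy => (mem_Gm_iff.mp (hT hy)).1) hst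
    (fun q hq _ hy => (mem_Gm_iff.mp (hT hy)).2 q hq)

/-- the same, in the shape of `FlatCond42.RClass r (cycloChar r) T.W` (unfolded). -/
theorem rClass_of_le_Gm (hp : p.Prime) (S : Finset ℕ) (hpS : p ∈ S) (hrS : r ∈ S) (k : ℕ)
    (T : StableSub GQ (JZero p)) [Finite T.W] (hT : T.W ≤ Gm p r S k)
    (hst : ∀ q : Nat.Primes, (q : ℕ) ∉ S → ∀ y ∈ T.W, heckeOperatorBar p q y ∈ T.W) :
    (∃ k' : ℕ, ∀ x : T.W, r ^ k' • x = 0) ∧ NilQuad (ExtCitation.cycloChar r) T.W :=
  ⟨⟨k, fun x => Subtype.ext (by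
      rw [AddSubgroup.coe_nsmul, (mem_Gm_iff.mp (hT x.2)).1]
      rfl)⟩, nilQuad_of_le_Gm r hp S hpS hrS k T hT hst⟩

end Main

end Fermat.Agent.MAZ.Constit89
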