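/-
Fermat/Agent/MAZ/Constit89/GmInst.lean  (helper89)

Programme MAZ (S15), brick X-ES-A1: **the Eisenstein part `GmMod p r S k = J₀(p)[r^k]_m` is in the
class `RClass r (cycloChar r)`** (instantiation of `Constit89/Main.lean` at helper5's
`Gm5.gmStable`).
-/
import Mathlib
import Fermat.Agent.MAZ.Constit89.Main
import Fermat.Agent.MAZ.Gm5.Stable

set_option autoImplicit false

open ModularCurve

namespace Fermat.Agent.MAZ.Constit89

open Fermat.Agent.MAZ.SelCoh42 Fermat.Agent.MAZ.Gm5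

variable {p : ℕ} [NeZero p] {S : Finset ℕ} [hp : Fact p.Prime] [hpS : Fact (p ∈ S)]
  (r : ℕ) [hr : Fact r.Prime]

/-- **X-ES-A1**: every `(g - 1)(g - χ(g))`, `χ = cycloChar r`, is nilpotent on `J₀(p)[r^k]_m`. -/
theorem nilQuad_gm (hrS : r ∈ S) (k : ℕ) [Finite (GmMod p r S k)] :
    NilQuad (ExtCitation.cycloChar r) (GmMod p r S k) :=
  nilQuad_of_le_Gm r hp.out S hpS.out hrS k (gmStable p r S k) le_rfl
    (fun _ hq _ hy => apply_mem_Gm (heckeOperatorBar_mem_heckeRing p hq) hy)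

/-- **X-ES-A1**, in the shape of `FlatCond42.RClass r (cycloChar r) (GmMod p r S k)` (unfolded). -/
theorem rClass_gm (hrS : r ∈ S) (k : ℕ) [Finite (GmMod p r S k)] :
    (∃ k' : ℕ, ∀ x : GmMod p r S k, r ^ k' • x = 0) ∧
      NilQuad (ExtCitation.cycloChar r) (GmMod p r S k) :=
  rClass_of_le_Gm r hp.out S hpS.out hrS k (gmStable p r S k) le_rfl
    (fun _ hq _ hy => apply_mem_Gm (heckeOperatorBar_mem_heckeRing p hq) hy)

end Fermat.Agent.MAZ.Constit89
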